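import Fermat.Agent.PrimePlusSquare.Singular
import Fermat.Agent.HuaSquares.Weyl
import Fermat.Agent.FourCubes.Major

/-!
# The mean square of the deviation

By Bessel it is at most the mean square of `f g` minus its models on a grid, `f` the sum over primes
up to `N` and `g` the quadratic sum up to `√N`: off the major arcs `|g| ^ 2 = O (N / log² N)` by
Weyl's inequality, and on them both sums are near their models.
-/

set_option autoImplicit false

noncomputable section

namespace FA.PrimePlusSquare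

open Finset FA.ThreePrimes ArithmeticFunction
open FA.HuaSquares (quadSum norm_quadSum_le norm_quadSum_sq_le)
open FA.HuaCubes (intTrig intTrig_mul)
open scoped Real

/-- **Dirichlet off the arcs.** -/
theorem exists_rational_of_outside {N : ℕ} {R : ℝ} (hR1 : 1 ≤ R) (hRN : R ≤ N) (α : ℝ)
    (hout : ∀ z ∈ arcCentres ⌊R⌋₊, R / N < nearDist (α - centre z)) :
    ∃ (q : ℕ) (a : ℤ), IsUnit (a : ZMod q) ∧ R < q ∧ (q : ℝ) ≤ N / R ∧
      |α - (a : ℝ) / q| ≤ 1 / (q : ℝ) ^ 2 := by
  have hN0 : (0 : ℝ) < N := lt_of_lt_of_le (by linarith) hRN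
  obtain ⟨n, hn⟩ : ∃ n, n = ⌊(N : ℝ) / R⌋₊ := ⟨_, rfl⟩
  have hn0 : 0 < n := hn ▸ Nat.floor_pos.2 ((one_le_div (by linarith)).2 hRN)
  obtain ⟨ρ, hρ, hρn⟩ := Real.exists_rat_abs_sub_le_and_den_le α hn0
  obtain ⟨q, hq⟩ : ∃ q, q = ρ.den := ⟨_, rfl⟩
  have : NeZero q := ⟨hq ▸ ρ.den_ne_zero⟩
  have hq0 : (0 : ℝ) < q := Nat.cast_pos.2 (NeZero.pos q)
  have hρv : (ρ : ℝ) = (ρ.num : ℝ) / q := by rw [hq, Rat.cast_def]
  rw [hρv, ← hq] at hρ
  have hunit : IsUnit (ρ.num : ZMod q) := by
    rw [ZMod.coe_int_isUnit_iff_isCoprime, isCoprime_comm, Int.isCoprime_iff_nat_coprime, hq]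
    simpa using ρ.reduced
  have hn1 : (N : ℝ) / R ≤ (n : ℝ) + 1 := hn ▸ (Nat.lt_floor_add_one _).le
  have hqn : (q : ℝ) ≤ (n : ℝ) + 1 := by
    have : (q : ℝ) ≤ n := Nat.cast_le.2 (hq ▸ hρn)
    linarith
  refine ⟨q, ρ.num, hunit, ?_, (Nat.cast_le.2 (hq ▸ hρn)).trans (hn ▸ Nat.floor_le (by positivity)),
    hρ.trans (one_div_le_one_div_of_le (by positivity)
      (by rw [sq]; exact mul_le_mul_of_nonneg_right hqn hq0.le))⟩
  by_contra hle
  rw [not_lt] at hle
  obtain ⟨r, hr⟩ : ∃ r, r = (ρ.num : ZMod q).val := ⟨_, rfl⟩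
  have hmem : (⟨q, r⟩ : Σ _ : ℕ, ℕ) ∈ arcCentres ⌊R⌋₊ := by
    refine mem_arcCentres.2 ⟨⟨NeZero.pos q, Nat.le_floor hle⟩, hr ▸ ZMod.val_lt _, ?_⟩
    have h1 : IsUnit ((r : ℕ) : ZMod q) := by rwa [hr, ZMod.natCast_zmod_val]
    exact ((ZMod.isUnit_iff_coprime r q).1 h1).symm
  obtain ⟨m, hm⟩ : (q : ℤ) ∣ ρ.num - r := by
    rw [← ZMod.intCast_zmod_eq_zero_iff_dvd, hr]
    push_cast
    rw [ZMod.natCast_zmod_val, sub_self]
  refine absurd (hout _ hmem) (not_lt.2 ((nearDist_le_abs_sub _ m).trans ?_))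
  have e : α - centre ⟨q, r⟩ - (m : ℝ) = α - (ρ.num : ℝ) / q := by
    have h3 : (ρ.num : ℝ) - r = q * m := by exact_mod_cast hm
    simp only [centre]
    field_simp
    linarith
  rw [e]
  refine hρ.trans ?_
  rw [div_le_div_iff₀ (by positivity) hN0, one_mul]
  have h4 : (N : ℝ) ≤ R * ((n : ℝ) + 1) := by
    rw [div_le_iff₀ (by linarith)] at hn1
    linarith
  refine h4.trans (mul_le_mul_of_nonneg_left ?_ (by linarith))
  refine le_mul_of_one_le_right (by positivity) ?_
  exact_mod_cast NeZero.pos q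

theorem norm_quadSum_sq_le_rational (P : ℕ) {q : ℕ} [NeZero q] {a : ℤ} {α : ℝ}
    (ha : IsUnit (a : ZMod q)) (hα : |α - a / q| ≤ 1 / (q : ℝ) ^ 2) :
    ‖quadSum α P‖ ^ 2 ≤
      P + 2 * ((((2 * P + 1 : ℕ) : ℝ) / q + 1) * (5 * P + 2 * q * (1 + Real.log q))) := by
  refine (norm_quadSum_sq_le le_rfl α).trans (add_le_add le_rfl
    (mul_le_mul_of_nonneg_left ?_ zero_le_two))
  refine le_trans (le_of_eq (sum_congr rfl fun h _ => ?_))
    (le_trans ((sum_image (f := fun m : ℕ => clip (P : ℝ) (0 + α * m)) (g := fun h => 2 * h)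
      fun x _ y _ e => by simpa using e).symm.le.trans (sum_le_sum_of_subset_of_nonneg
        (t := range (2 * P + 1)) ?_ fun m _ _ => clip_nonneg (Nat.cast_nonneg P) _))
      (sum_clip_range_le ha hα 0 (Nat.cast_nonneg P) (2 * P + 1)))
  · congr 1
    push_cast
    ring
  · intro m hm
    obtain ⟨h, hh, rfl⟩ := mem_image.1 hm
    rw [mem_Icc] at hh
    rw [mem_range]
    omega

theorem rootFloor_two {N : ℕ} (hN : 1 ≤ N) : WaringAsymptotic.rootFloor 2 N = Nat.sqrt N := by
  obtain ⟨-, h2, h3⟩ := WaringAsymptotic.rootFloor_spec one_le_two hN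
  refine le_antisymm (Nat.le_sqrt'.2 h2) ?_
  by_contra h
  have := Nat.pow_le_pow_left (show WaringAsymptotic.rootFloor 2 N + 1 ≤ Nat.sqrt N by omega) 2
  have := Nat.sqrt_le' N
  omega

theorem waringSum_two (P : ℕ) (α : ℝ) : WaringAsymptotic.waringSum 2 P α = quadSum α P := by
  rw [WaringAsymptotic.waringSum, quadSum, show Icc 1 P = Ioc 0 P by ext; simp; omega]

/-! ### The grid -/

/-- The variables `(m, x)`, `m ≤ N`, `x ² ≤ N`. -/
def squareVars (N : ℕ) : Finset (ℕ × ℕ) := Ioc 0 N ×ˢ Ioc 0 (Nat.sqrt N)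

/-- The representations of `n` as `m + x²` with the weight `f m`. -/
def squareReps (f : ℕ → ℝ) (N n : ℕ) : ℝ :=
  ∑ z ∈ (squareVars N).filter (fun z => z.1 + z.2 ^ 2 = n), f z.1

/-- `J (n)`. -/
def rootWeight (N n : ℕ) : ℝ :=
  ∑ z ∈ (Ioc 0 N ×ˢ Ioc 0 N).filter (fun z => z.1 + z.2 = n), WaringAsymptotic.weight (1 / 2) z.2

/-- What is left of `f g`. -/
def pairRemainder (N Q : ℕ) (t : ℝ) : ℂ :=
  twist t Λ N * quadSum t (Nat.sqrt N) - ∑ z ∈ arcCentres Q, pairCoeff z *
    (geomSum N (t - centre z) * WaringAsymptotic.weightSum (1 / 2) N (t - centre z))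

theorem twist_mul_quadSum (N : ℕ) (t : ℝ) : twist t Λ N * quadSum t (Nat.sqrt N) =
    intTrig (squareVars N) (fun z => (Λ z.1 : ℂ) * 1) (fun z => ((z.1 + z.2 ^ 2 : ℕ) : ℤ)) t := by
  have e1 : twist t Λ N = intTrig (Ioc 0 N) (fun m => (Λ m : ℂ)) (fun m => (m : ℤ)) t := by
    simp [twist, intTrig]
  have e2 : quadSum t (Nat.sqrt N) =
      intTrig (Ioc 0 (Nat.sqrt N)) (fun _ => 1) (fun x => ((x ^ 2 : ℕ) : ℤ)) t := by
    simp [quadSum, intTrig, mul_comm t]
  rw [e1, e2, intTrig_mul]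
  simp only [Nat.cast_add]
  rfl

theorem model_shift (N : ℕ) (t θ : ℝ) :
    geomSum N (t - θ) * WaringAsymptotic.weightSum (1 / 2) N (t - θ) = intTrig (Ioc 0 N ×ˢ Ioc 0 N)
      (fun z => (WaringAsymptotic.weight (1 / 2) z.2 : ℂ) *
        eAdd (-(((z.1 + z.2 : ℕ) : ℝ) * θ)))
      (fun z => ((z.1 + z.2 : ℕ) : ℤ)) t := by
  have e1 : geomSum N (t - θ) = intTrig (Ioc 0 N) (fun _ => 1) (fun m => (m : ℤ)) (t - θ) := by
    simp [geomSum, intTrig]
  have e2 : WaringAsymptotic.weightSum (1 / 2) N (t - θ) = intTrig (Ioc 0 N)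
      (fun m => (WaringAsymptotic.weight (1 / 2) m : ℂ)) (fun m => (m : ℤ)) (t - θ) := by
    simp [WaringAsymptotic.weightSum, intTrig]
  rw [e1, e2, intTrig_mul, intTrig, intTrig]
  refine sum_congr rfl fun m _ => ?_
  simp only [mul_assoc, one_mul, ← eAdd_add]
  push_cast
  ring_nf

/-- **The deviations and the remainder.** -/
theorem sum_pair_deviation_le {N Q M : ℕ} (hN : 1 ≤ N) (hM : M = 4 * N) :
    (M : ℝ) * ∑ n ∈ Ioc 0 N,
        ‖(squareReps Λ N n : ℂ) - (rootWeight N n : ℂ) * ∑ q ∈ Icc 1 Q, pairTerm n q‖ ^ 2 ≤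
      ∑ h ∈ range M, ‖pairRemainder N Q ((h : ℝ) / M)‖ ^ 2 := by
  have hM0 : 0 < M := by omega
  refine le_of_mul_le_mul_left ?_ (show (0 : ℝ) < M by rw [hM]; positivity)
  refine le_trans (le_of_eq ?_) (FourCubes.sum_norm_coeff_sq_le
    (fun h => pairRemainder N Q ((h : ℝ) / M)) (A := 0) (B := N) (by omega))
  rw [← mul_assoc, mul_sum]
  refine sum_congr rfl fun n hn => ?_
  rw [mem_Ioc] at hn
  have e : ∑ h ∈ range M, pairRemainder N Q ((h : ℝ) / M) * eAdd (-((n : ℝ) * h / M)) =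
      (M : ℂ) * ((squareReps Λ N n : ℂ) - (rootWeight N n : ℂ) * ∑ q ∈ Icc 1 Q, pairTerm n q) := by
    simp only [pairRemainder, sub_mul, sum_sub_distrib, mul_sub, sum_mul]
    congr 1
    · simp only [twist_mul_quadSum]
      rw [FourCubes.sum_intTrig_coeff _ _ _ hM0 n fun i hi => ?_]
      · simp only [squareReps, Complex.ofReal_sum, Nat.cast_inj, mul_one]
      · simp only [squareVars, mem_product, mem_Ioc] at hi
        have h1 := Nat.pow_le_pow_left hi.2.2 2
        have h2 := Nat.sqrt_le' N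
        rw [abs_lt]
        omega
    · rw [sum_comm, pairTerm_eq_arcs, mul_sum, mul_sum, ← arcCentres]
      refine sum_congr rfl fun z _ => ?_
      simp only [model_shift, mul_assoc, ← mul_sum]
      rw [FourCubes.sum_intTrig_coeff _ _ _ hM0 n fun i hi => ?_]
      · rw [rootWeight, Complex.ofReal_sum,
          show (Ioc 0 N ×ˢ Ioc 0 N).filter (fun m => ((m.1 + m.2 : ℕ) : ℤ) = n) =
            (Ioc 0 N ×ˢ Ioc 0 N).filter (fun m => m.1 + m.2 = n) from
            filter_congr fun m _ => Int.natCast_inj]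
        rw [sum_congr rfl fun m hm => by rw [(mem_filter.1 hm).2], sum_mul, mul_sum, mul_sum, mul_sum]
        refine sum_congr rfl fun m _ => ?_
        ring
      · simp only [mem_product, mem_Ioc] at hi
        rw [abs_lt]
        omega
  rw [e, norm_mul, Complex.norm_natCast, mul_pow]
  ring

/-- **The mean square of the deviation.** -/
theorem exists_deviation_le : ∃ (N₀ : ℕ) (C : ℝ), 0 < C ∧ ∀ N : ℕ, N₀ ≤ N →
    1 ≤ Real.log N ∧ ∑ n ∈ Ioc 0 N, ‖(squareReps Λ N n : ℂ) -
        (rootWeight N n : ℂ) * ∑ q ∈ Icc 1 ⌊Real.log N ^ 3⌋₊, pairTerm n q‖ ^ 2 ≤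
      C * ((N : ℝ) ^ 2 / Real.log N) := by
  classical
  obtain ⟨C, hC, hmaj⟩ := exists_major_approx 9 9
  obtain ⟨K₀, hK₀, hpow⟩ := exists_log_pow_le 21
  refine ⟨max ⌈Real.exp 2⌉₊ ⌈(2 * K₀ + 1) ^ 2⌉₊,
    2 * ((38 + 35 * K₀) * 6 + 69 * (C + 72 * K₀) ^ 2) + 2 * (3 * 50), by positivity,
    fun N hN => ?_⟩
  simp only [max_le_iff] at hN
  have hN' : Real.exp 2 ≤ N := (Nat.le_ceil _).trans (Nat.cast_le.2 hN.1)
  have hN0 : (0 : ℝ) < N := lt_of_lt_of_le (Real.exp_pos _) hN'
  obtain ⟨l, hl⟩ : ∃ l, l = Real.log N := ⟨_, rfl⟩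
  have hl2 : 2 ≤ l := hl ▸ (Real.le_log_iff_exp_le hN0).2 hN'
  rw [← hl]
  refine ⟨by linarith, ?_⟩
  have hl0 : 0 < l := by linarith
  have hl1 : 1 ≤ l := by linarith
  have hN2 : 2 ≤ N := by
    have : (2 : ℝ) ≤ N := le_trans (by linarith [Real.add_one_le_exp (2 : ℝ)]) hN'
    exact_mod_cast this
  have hN1 : (1 : ℝ) ≤ N := by exact_mod_cast (show 1 ≤ N by omega)
  obtain ⟨s, hs⟩ : ∃ s, s = √(N : ℝ) := ⟨_, rfl⟩
  have hss : s * s = N := hs ▸ Real.mul_self_sqrt hN0.le
  have hs0 : 0 < s := hs ▸ Real.sqrt_pos.2 hN0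
  have hsN : s ≤ N := by
    rw [hs, Real.sqrt_le_left hN0.le]
    nlinarith
  have hlpow : ∀ m, m ≤ 21 → l ^ m ≤ K₀ * s := fun m hm =>
    (pow_le_pow_right₀ hl1 hm).trans (hl ▸ hs ▸ hpow N hN1)
  have hsK : 2 * K₀ + 1 ≤ s :=
    hs ▸ Real.le_sqrt_of_sq_le ((Nat.le_ceil _).trans (Nat.cast_le.2 hN.2))
  obtain ⟨P, hP⟩ : ∃ P, P = Nat.sqrt N := ⟨_, rfl⟩
  have hPs : (P : ℝ) ≤ s := hs ▸ Real.le_sqrt_of_sq_le (by exact_mod_cast hP ▸ Nat.sqrt_le' N)
  have hP1 : (1 : ℝ) ≤ P := by exact_mod_cast hP ▸ Nat.le_sqrt'.2 (show 1 ^ 2 ≤ N by omega)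
  obtain ⟨Q, hQ⟩ : ∃ Q, Q = ⌊l ^ 3⌋₊ := ⟨_, rfl⟩
  have hl31 : 1 ≤ l ^ 3 := one_le_pow₀ hl1
  have hQl : (Q : ℝ) ≤ l ^ 3 := hQ ▸ Nat.floor_le (by linarith)
  rw [← hQ]
  obtain ⟨M, hM⟩ : ∃ M, M = 4 * N := ⟨_, rfl⟩
  have : NeZero M := ⟨by omega⟩
  have hMr : (M : ℝ) = 4 * N := by rw [hM]; push_cast; ring
  have hM0 : (0 : ℝ) < M := by rw [hMr]; positivity
  obtain ⟨δ, hδ⟩ : ∃ δ, δ = l ^ 9 / (N : ℝ) := ⟨_, rfl⟩
  have hδ0 : 0 < δ := by rw [hδ]; positivity
  have hlogM : 1 + Real.log M ≤ 4 * l := by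
    rw [hMr, Real.log_mul (by norm_num) hN0.ne', ← hl, show (4 : ℝ) = 2 ^ 2 by norm_num,
      Real.log_pow]
    push_cast
    linarith [Real.log_two_lt_d9]
  refine le_of_mul_le_mul_left ((sum_pair_deviation_le (by omega) hM).trans ?_) hM0
  obtain ⟨T, hT⟩ : ∃ T : ℕ → (Σ _ : ℕ, ℕ) → ℂ, T = fun (h : ℕ) z => pairCoeff z *
      (geomSum N ((h : ℝ) / M - centre z) *
        WaringAsymptotic.weightSum (1 / 2) N ((h : ℝ) / M - centre z)) := ⟨_, rfl⟩
  obtain ⟨F, hF⟩ : ∃ F : ℕ → ℂ, F = fun h : ℕ =>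
      twist ((h : ℝ) / M) Λ N * quadSum ((h : ℝ) / M) P -
        ∑ z ∈ (arcCentres Q).filter (fun z => h ∈ arc M δ z), T h z := ⟨_, rfl⟩
  obtain ⟨D, hD⟩ : ∃ D, D = (M : ℝ) * ((N : ℝ) ^ 2 / l) := ⟨_, rfl⟩
  have hrem : ∀ h : ℕ, pairRemainder N Q ((h : ℝ) / M) =
      F h - ∑ z ∈ (arcCentres Q).filter (fun z => h ∉ arc M δ z), T h z := fun h => by
    rw [pairRemainder, ← sum_filter_add_sum_filter_not (arcCentres Q) (fun z => h ∈ arc M δ z),
      hF, hT, sub_sub, ← hP]
  have huniq : ∀ h z u, z ∈ arcCentres Q → u ∈ arcCentres Q → h ∈ arc M δ z → h ∈ arc M δ u →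
      z = u := by
    intro x z u hz hu hx hx'
    by_contra hne
    rw [arc, mem_filter] at hx hx'
    have h1 := inv_mul_le_nearDist_centre hz hu hne
    have h2 := nearDist_sub_sub_le (centre z) (centre u) ((x : ℝ) / M)
    have hQ0 : (0 : ℝ) < Q := by
      rw [hQ, Nat.cast_pos, Nat.floor_pos]
      exact hl31
    have h3 : 2 * δ < 1 / ((Q : ℝ) * Q) := by
      rw [hδ, mul_div_assoc', div_lt_div_iff₀ hN0 (by positivity), one_mul]
      calc 2 * l ^ 9 * ((Q : ℝ) * Q) ≤ 2 * (l ^ 9 * (l ^ 3 * l ^ 3)) := by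
            rw [mul_assoc]
            gcongr
        _ ≤ 2 * (K₀ * s) := by
            rw [← pow_add, ← pow_add]
            exact mul_le_mul_of_nonneg_left (hlpow 15 (by norm_num)) zero_le_two
        _ < s * s := by nlinarith
        _ = N := hss
    linarith
  have hA : ∑ h ∈ range M, ‖F h‖ ^ 2 ≤ ((38 + 35 * K₀) * 6 + 69 * (C + 72 * K₀) ^ 2) * D := by
    rw [← sum_filter_add_sum_filter_not (range M) (fun h => ∀ z ∈ arcCentres Q, h ∉ arc M δ z),
      add_mul]
    refine add_le_add ?_ ?_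
    · refine (sum_le_sum (g := fun h : ℕ => (38 + 35 * K₀) * (N / l ^ 2) *
        ‖trigSum (fun m => (Λ m : ℂ)) N ((h : ℝ) / M)‖ ^ 2) fun h hh => ?_).trans ?_
      · rw [mem_filter] at hh
        rw [hF]
        simp only
        rw [filter_eq_empty_iff.2 fun z hz => hh.2 z hz, sum_empty, sub_zero, norm_mul, mul_pow,
          mul_comm, twist_eq_trigSum]
        refine mul_le_mul_of_nonneg_right ?_ (sq_nonneg _)
        have hl3N : l ^ 3 ≤ N := by
          have := hlpow 3 (by norm_num)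
          nlinarith
        obtain ⟨q, a, ha, hq, hqN, hα⟩ := exists_rational_of_outside hl31 hl3N ((h : ℝ) / M)
          fun z hz => by
            rw [← hQ] at hz
            have h1 := hh.2 z hz
            simp only [arc, mem_filter, not_and, not_le] at h1
            refine lt_of_le_of_lt ?_ (h1 hh.1)
            rw [hδ]
            exact div_le_div_of_nonneg_right (pow_le_pow_right₀ hl1 (by norm_num)) hN0.le
        have hq0 : (0 : ℝ) < q := lt_of_lt_of_le (by positivity) hq.le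
        have : NeZero q := ⟨by exact_mod_cast hq0.ne'⟩
        refine (norm_quadSum_sq_le_rational P ha hα).trans ?_
        have hlq : Real.log q ≤ l := hl ▸ Real.log_le_log hq0
          (hqN.trans (div_le_self hN0.le hl31))
        obtain ⟨W, hW⟩ : ∃ W, W = (N : ℝ) / l ^ 2 := ⟨_, rfl⟩
        rw [← hW]
        have b1 : (P : ℝ) * l ≤ K₀ * W := by
          rw [hW, mul_div_assoc', le_div_iff₀ (by positivity), mul_assoc, ← pow_succ']
          calc (P : ℝ) * l ^ 3 ≤ s * (K₀ * s) :=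
                mul_le_mul hPs (hlpow 3 (by norm_num)) (by positivity) hs0.le
            _ = K₀ * N := by rw [← hss]; ring
        have b2 : (q : ℝ) * l ≤ W := by
          rw [le_div_iff₀ (by positivity)] at hqN
          rw [hW, le_div_iff₀ (by positivity), mul_assoc, ← pow_succ']
          exact hqN
        have b3 : (P : ℝ) * P / q ≤ W := by
          rw [hW]
          refine div_le_div₀ hN0.le ?_ (by positivity)
            ((pow_le_pow_right₀ hl1 (by norm_num)).trans hq.le)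
          rw [← hss]
          exact mul_le_mul hPs hPs (by linarith) hs0.le
        have b4 : (P : ℝ) ≤ P * l := le_mul_of_one_le_right (by linarith) hl1
        calc (P : ℝ) + 2 * ((((2 * P + 1 : ℕ) : ℝ) / q + 1) * (5 * P + 2 * q * (1 + Real.log q)))
            ≤ P * l + 2 * ((3 * P / q + 1) * (5 * P + 4 * (q * l))) := by
              refine add_le_add b4 (mul_le_mul_of_nonneg_left (mul_le_mul ?_ ?_ ?_ ?_) zero_le_two)
              · push_cast
                gcongr
                linarith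
              · have := mul_le_mul_of_nonneg_left (show 1 + Real.log q ≤ 2 * l by linarith)
                  (show 0 ≤ 2 * (q : ℝ) by positivity)
                linarith
              · have := Real.log_natCast_nonneg q
                positivity
              · positivity
          _ = P * l + 30 * ((P : ℝ) * P / q) + 24 * (P * l) + 10 * P + 8 * (q * l) := by
              field_simp
              ring
          _ ≤ _ := by linarith
      · rw [← mul_sum]
        refine (mul_le_mul_of_nonneg_left (sum_le_sum_of_subset_of_nonneg (t := range M)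
          (filter_subset _ _) fun i _ _ => by positivity) (by positivity)).trans ?_
        rw [sum_norm_sq_grid _ (by omega)]
        have hsq : ∑ m ∈ Icc 1 N, ‖(Λ m : ℂ)‖ ^ 2 ≤ l * (6 * N) := by
          rw [show Icc 1 N = Ioc 0 N by ext; simp; omega]
          refine le_trans (sum_le_sum (g := fun m => l * Λ m) fun m hm => ?_) ?_
          · rw [Complex.norm_real, Real.norm_eq_abs, sq_abs, sq]
            refine mul_le_mul_of_nonneg_right (vonMangoldt_le_log.trans ?_) vonMangoldt_nonneg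
            rw [mem_Ioc] at hm
            exact hl ▸ Real.log_le_log (Nat.cast_pos.2 hm.1) (Nat.cast_le.2 hm.2)
          · rw [← mul_sum]
            exact mul_le_mul_of_nonneg_left (sum_vonMangoldt_le N) hl0.le
        refine (mul_le_mul_of_nonneg_left (mul_le_mul_of_nonneg_left hsq hM0.le)
          (by positivity)).trans (le_of_eq ?_)
        rw [hD]
        field_simp
    · obtain ⟨X, hX⟩ : ∃ X, X = (C + 72 * K₀) * (s * N / l ^ 9) := ⟨_, rfl⟩
      refine (sum_le_card_nsmul _ _ (X ^ 2) fun h hh => ?_).trans ?_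
      · rw [mem_filter] at hh
        push Not at hh
        obtain ⟨z, hz, hhz⟩ := hh.2
        rw [hF]
        simp only
        rw [show (arcCentres Q).filter (fun z => h ∈ arc M δ z) = {z} from
          eq_singleton_iff_unique_mem.2 ⟨mem_filter.2 ⟨hz, hhz⟩, fun u hu =>
            huniq h u z (mem_filter.1 hu).1 hz (mem_filter.1 hu).2 hhz⟩, sum_singleton, hT]
        refine pow_le_pow_left₀ (norm_nonneg _) ?_ 2
        obtain ⟨q, r⟩ := z
        obtain ⟨⟨hq, hqQ⟩, hrq, hcop⟩ := mem_arcCentres.1 hz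
        simp only at hq hqQ hrq hcop
        have : NeZero q := ⟨by omega⟩
        have hqR : (q : ℝ) ≤ l ^ 3 := (Nat.cast_le.2 hqQ).trans hQl
        rw [arc, mem_filter, nearDist] at hhz
        obtain ⟨j, hj⟩ : ∃ j, j = round ((h : ℝ) / M - centre ⟨q, r⟩) := ⟨_, rfl⟩
        obtain ⟨β, hβ⟩ : ∃ β, β = (h : ℝ) / M - centre ⟨q, r⟩ - j := ⟨_, rfl⟩
        rw [← hj, ← hβ] at hhz
        have hβN : |β| * N ≤ l ^ 9 := by
          rw [← le_div_iff₀ hN0, ← hδ]
          exact hhz.2
        have hα1 : twist ((h : ℝ) / M) Λ N = twist (((r : ℤ) : ℝ) / (q : ℝ) + β) Λ N := by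
          refine sum_congr rfl fun x _ => congrArg _ ?_
          rw [← eAdd_add_intCast _ (-(j * (x : ℤ))), hβ, centre]
          push_cast
          ring_nf
        have hα2 : quadSum ((h : ℝ) / M) P = quadSum (((r : ℤ) : ℝ) / (q : ℝ) + β) P := by
          refine sum_congr rfl fun x _ => ?_
          rw [← eAdd_add_intCast _ (-(j * (x : ℤ) ^ 2)), hβ, centre]
          push_cast
          ring_nf
        have hunit : IsUnit ((r : ℤ) : ZMod q) := by
          rw [Int.cast_natCast]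
          exact (ZMod.isUnit_iff_coprime r q).2 hcop.symm
        have hf := hmaj N q (r : ℤ) β hN2 hunit
          (hl ▸ hqR.trans (pow_le_pow_right₀ hl1 (by norm_num))) (hl ▸ hβN)
        have hg := WaringAsymptotic.norm_waringSum_sub_le one_le_two (show 1 ≤ N by omega)
          (show 0 < q by omega) (r : ℤ) β
        rw [rootFloor_two (show 1 ≤ N by omega), waringSum_two, ← hP] at hg
        rw [← hα1, ← hl] at hf
        rw [← hα2] at hg
        obtain ⟨a, ha⟩ : ∃ a, a = ((moebiusR q / q.totient : ℝ) : ℂ) * geomSum N β := ⟨_, rfl⟩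
        obtain ⟨b, hb⟩ : ∃ b, b = WaringAsymptotic.densityFactor 2 q r *
            WaringAsymptotic.weightSum (1 / 2) N β := ⟨_, rfl⟩
        have e1 : geomSum N ((h : ℝ) / M - centre ⟨q, r⟩) = geomSum N β := by
          rw [hβ, geomSum_sub_intCast]
        have e2 : WaringAsymptotic.weightSum (1 / 2) N ((h : ℝ) / M - centre ⟨q, r⟩) =
            WaringAsymptotic.weightSum (1 / 2) N β := by
          rw [hβ, WaringAsymptotic.weightSum_sub_intCast]
        simp only
        rw [e1, e2, show pairCoeff ⟨q, r⟩ * (geomSum N β * WaringAsymptotic.weightSum (1 / 2) N β) =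
          a * b by rw [ha, hb, pairCoeff]; ring]
        rw [← ha] at hf
        push_cast at hg
        rw [← hb] at hg
        obtain ⟨f, hf'⟩ : ∃ f, f = twist ((h : ℝ) / M) Λ N := ⟨_, rfl⟩
        obtain ⟨g, hg'⟩ : ∃ g, g = quadSum ((h : ℝ) / M) P := ⟨_, rfl⟩
        rw [← hf'] at hf ⊢
        rw [← hg'] at hg ⊢
        have na : ‖a‖ ≤ N := by
          rw [ha, norm_mul]
          refine (mul_le_of_le_one_left (norm_nonneg _) (norm_moebius_ratio_le q)).trans ?_
          refine (norm_geom_le β 0 N).trans ((clip_le _ _).trans ?_)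
          simp
        have ng : ‖g‖ ≤ s := hg' ▸ (norm_quadSum_le _ _).trans hPs
        have h1 : 1 + 2 * π * |β| * N ≤ 9 * l ^ 9 := by
          have := mul_le_mul_of_nonneg_left hβN (show (0 : ℝ) ≤ 2 * π by positivity)
          have := mul_le_mul_of_nonneg_right Real.pi_le_four (show (0 : ℝ) ≤ l ^ 9 by positivity)
          have : 1 ≤ l ^ 9 := one_le_pow₀ hl1
          linarith
        have h2 : ‖g - b‖ ≤ 72 * (K₀ * s / l ^ 9) := by
          refine hg.trans ((mul_le_mul (mul_le_mul_of_nonneg_left hqR (by norm_num)) h1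
            (by positivity) (by positivity)).trans ?_)
          rw [show 8 * l ^ 3 * (9 * l ^ 9) = 72 * l ^ 12 by ring]
          refine mul_le_mul_of_nonneg_left ?_ (by norm_num)
          rw [le_div_iff₀ (by positivity), ← pow_add]
          exact hlpow 21 le_rfl
        rw [show f * g - a * b = (f - a) * g + a * (g - b) by ring]
        refine (norm_add_le _ _).trans ?_
        rw [norm_mul, norm_mul]
        refine (add_le_add (mul_le_mul hf ng (norm_nonneg _) (by positivity))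
          (mul_le_mul na h2 (norm_nonneg _) hN0.le)).trans (le_of_eq ?_)
        rw [hX]
        ring
      rw [nsmul_eq_mul]
      have hcard : (((range M).filter fun h => ¬∀ z ∈ arcCentres Q, h ∉ arc M δ z).card : ℝ) ≤
          69 * (l ^ 6 * (l ^ 9 * l)) := by
        refine (Nat.cast_le.2 ((card_le_card fun h hh => ?_).trans card_biUnion_le :
          ((range M).filter fun h => ¬∀ z ∈ arcCentres Q, h ∉ arc M δ z).card ≤
            ∑ z ∈ arcCentres Q, (arc M δ z).card)).trans ?_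
        · rw [mem_filter] at hh
          push Not at hh
          exact mem_biUnion.2 hh.2
        push_cast
        refine (sum_le_card_nsmul _ _ (69 * (l ^ 9 * l)) fun z _ => ?_).trans ?_
        · refine (card_arc_le hδ0 z).trans ?_
          have hMd : 4 * (M : ℝ) * δ = 16 * l ^ 9 := by rw [hMr, hδ]; field_simp; ring
          rw [hMd]
          have := mul_le_mul_of_nonneg_left hlogM (show 0 ≤ 16 * l ^ 9 by positivity)
          have : 1 ≤ l ^ 9 * l := one_le_mul_of_one_le_of_one_le (one_le_pow₀ hl1) hl1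
          linarith
        · rw [nsmul_eq_mul]
          exact (mul_le_mul_of_nonneg_right ((FourCubes.card_arcCentres_le Q).trans
            (pow_le_pow_left₀ (Nat.cast_nonneg _) hQl 2)) (by positivity)).trans
              (le_of_eq (by ring))
      refine (mul_le_mul_of_nonneg_right hcard (sq_nonneg X)).trans ?_
      calc 69 * (l ^ 6 * (l ^ 9 * l)) * X ^ 2
          = 69 * (C + 72 * K₀) ^ 2 * ((s * s) * (N : ℝ) ^ 2 * (1 / l ^ 2)) := by
            rw [hX]
            field_simp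
        _ ≤ _ := by
            refine mul_le_mul_of_nonneg_left ?_ (by positivity)
            rw [hss, hD, hMr, mul_assoc (4 : ℝ)]
            refine le_trans (le_of_eq_of_le (mul_assoc _ _ _) ?_)
              (le_mul_of_one_le_left (by positivity) (by norm_num))
            refine mul_le_mul_of_nonneg_left ?_ hN0.le
            rw [mul_one_div]
            exact div_le_div_of_nonneg_left (by positivity) hl0 (le_self_pow₀ hl1 two_ne_zero)
  have hB : ∑ h ∈ range M, ‖∑ z ∈ (arcCentres Q).filter (fun z => h ∉ arc M δ z), T h z‖ ^ 2 ≤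
      3 * 50 * D := by
    have h1 : ∀ h : ℕ, ‖∑ z ∈ (arcCentres Q).filter (fun z => h ∉ arc M δ z), T h z‖ ^ 2 ≤
        l ^ 6 * ∑ z ∈ arcCentres Q, if h ∉ arc M δ z then
          ‖geomSum N ((h : ℝ) / M - centre z)‖ ^ 2 *
            ‖WaringAsymptotic.weightSum (1 / 2) N ((h : ℝ) / M - centre z)‖ ^ 2 else 0 := by
      intro h
      refine (pow_le_pow_left₀ (norm_nonneg _) (norm_sum_le _ _) 2).trans
        (sq_sum_le_card_mul_sum_sq.trans ?_)
      rw [← sum_filter]
      refine mul_le_mul ((Nat.cast_le.2 (card_le_card (filter_subset _ _))).trans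
        ((FourCubes.card_arcCentres_le Q).trans ?_)) (sum_le_sum fun z _ => ?_)
        (sum_nonneg fun _ _ => sq_nonneg _) (by positivity)
      · rw [pow_mul l 3 2]
        exact pow_le_pow_left₀ (Nat.cast_nonneg _) hQl 2
      · rw [hT]
        simp only [norm_mul, mul_pow]
        exact mul_le_of_le_one_left (by positivity)
          (pow_le_one₀ (norm_nonneg _) (norm_pairCoeff_le_one z))
    refine (sum_le_sum fun h _ => h1 h).trans ?_
    rw [← mul_sum, sum_comm]
    have hoff : ∀ z ∈ arcCentres Q, (∑ h ∈ range M, if h ∉ arc M δ z then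
        ‖geomSum N ((h : ℝ) / M - centre z)‖ ^ 2 *
          ‖WaringAsymptotic.weightSum (1 / 2) N ((h : ℝ) / M - centre z)‖ ^ 2 else 0) ≤
          3 * 50 * (δ ^ 2)⁻¹ * ((M : ℝ) * l) := by
      intro z _
      obtain ⟨Z, hZ⟩ : ∃ Z, Z = 1 / (2 * δ) := ⟨_, rfl⟩
      have hZ0 : 0 < Z := by rw [hZ]; positivity
      rw [← sum_filter]
      refine (sum_le_sum (g := fun h : ℕ =>
        3 * (δ ^ 2)⁻¹ * (2 * clip Z ((h : ℝ) / M - centre z))) fun h hh => ?_).trans ?_
      · rw [mem_filter, arc, mem_filter, not_and, not_le] at hh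
        have hd := hh.2 hh.1
        obtain ⟨d, hd'⟩ : ∃ d, d = nearDist ((h : ℝ) / M - centre z) := ⟨_, rfl⟩
        rw [← hd'] at hd
        have hd0 : 0 < d := hδ0.trans hd
        have h1 := WaringAsymptotic.norm_weightSum_le_inv (c := (1 / 2 : ℝ)) (by norm_num)
          (by norm_num) N (hd' ▸ hd0)
        rw [← hd'] at h1
        have h2 : ‖geomSum N ((h : ℝ) / M - centre z)‖ ≤ 1 / (2 * d) :=
          (norm_geom_le _ 0 N).trans (clip_le_inv hd0 hd'.le)
        have hclip : 2 * clip Z ((h : ℝ) / M - centre z) = d⁻¹ := by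
          rw [clip, ← hd', if_neg hd0.ne', min_eq_right
            (hZ ▸ one_div_le_one_div_of_le (by positivity) (by linarith))]
          field_simp
        refine (mul_le_mul (pow_le_pow_left₀ (norm_nonneg _) h2 2)
          (pow_le_pow_left₀ (norm_nonneg _) h1 2) (sq_nonneg _) (sq_nonneg _)).trans ?_
        rw [hclip, mul_pow (3 : ℝ), ← Real.rpow_natCast (d ^ _) 2, ← Real.rpow_mul hd0.le,
          show -(1 / 2 : ℝ) * ((2 : ℕ) : ℝ) = -1 by norm_num, Real.rpow_neg_one,
          ← mul_assoc]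
        refine mul_le_mul_of_nonneg_right ?_ (by positivity)
        rw [show (1 / (2 * d)) ^ 2 * (3 : ℝ) ^ 2 = 9 / 4 * (d ^ 2)⁻¹ by field_simp; ring]
        exact mul_le_mul (by norm_num) (inv_anti₀ (by positivity) (pow_le_pow_left₀ hδ0.le hd.le 2))
          (by positivity) (by norm_num)
      rw [← mul_sum, ← mul_sum]
      refine (mul_le_mul_of_nonneg_left (mul_le_mul_of_nonneg_left
        ((sum_le_sum_of_subset_of_nonneg (filter_subset _ _) fun i _ _ => clip_nonneg hZ0.le _).trans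
          (sum_clip_grid_le (centre z) hZ0.le)) two_pos.le) (by positivity)).trans ?_
      have hZM : 5 * Z + 2 * M * (1 + Real.log M) ≤ 25 * M * l := by
        have h1 : Z ≤ (M : ℝ) * 1 := by
          rw [hZ, hδ, hMr, show 1 / (2 * (l ^ 9 / (N : ℝ))) = N / (2 * l ^ 9) by field_simp,
            div_le_iff₀ (by positivity)]
          have := mul_le_mul_of_nonneg_left (one_le_pow₀ hl1 : (1 : ℝ) ≤ l ^ 9) hN0.le
          linarith
        have h2 := mul_le_mul_of_nonneg_left hlogM (show 0 ≤ 2 * (M : ℝ) by positivity)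
        have h3 := mul_le_mul_of_nonneg_left hl1 hM0.le
        linarith
      calc 3 * (δ ^ 2)⁻¹ * (2 * (5 * Z + 2 * M * (1 + Real.log M)))
          ≤ 3 * (δ ^ 2)⁻¹ * (2 * (25 * M * l)) := by gcongr
        _ = _ := by ring
    refine (mul_le_mul_of_nonneg_left ((sum_le_card_nsmul _ _ _ hoff).trans (le_of_eq_of_le
      (nsmul_eq_mul _ _) (mul_le_mul_of_nonneg_right ((FourCubes.card_arcCentres_le Q).trans
        (pow_le_pow_left₀ (Nat.cast_nonneg _) hQl 2)) (by positivity)))) (by positivity)).trans ?_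
    calc l ^ 6 * ((l ^ 3) ^ 2 * (3 * 50 * (δ ^ 2)⁻¹ * ((M : ℝ) * l)))
        = 3 * 50 * ((M : ℝ) * (N : ℝ) ^ 2 * (1 / l ^ 5)) := by
          rw [hδ]
          field_simp
      _ ≤ _ := by
          rw [hD]
          refine mul_le_mul_of_nonneg_left ?_ (by norm_num)
          rw [mul_one_div, mul_div_assoc]
          exact mul_le_mul_of_nonneg_left (div_le_div_of_nonneg_left (by positivity) hl0
            (le_self_pow₀ hl1 (by norm_num))) hM0.le
  simp only [hrem]
  refine (sum_le_sum fun h _ => (pow_le_pow_left₀ (norm_nonneg _) (norm_sub_le _ _) 2).trans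
    add_sq_le).trans ?_
  rw [← mul_sum, sum_add_distrib]
  refine (mul_le_mul_of_nonneg_left (add_le_add hA hB) zero_le_two).trans (le_of_eq ?_)
  rw [hD]
  ring

end FA.PrimePlusSquare
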