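import Fermat.Agent.PrimePlusSquare.Circle
import Fermat.Agent.ThreePrimes.Main

/-!
# Almost all numbers are a prime plus a square

An exception in `(ε N / 2, N]` has a small partial singular series, many representations by prime
powers, or a large deviation.
-/

set_option autoImplicit false

noncomputable section

namespace FA.PrimePlusSquare

open Finset FA.ThreePrimes ArithmeticFunction Filter Topology
open scoped Real

/-- `n = p + x²` with `x ≥ 1`. -/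
def IsPrimePlusSquare (n : ℕ) : Prop := ∃ p x : ℕ, p.Prime ∧ 0 < x ∧ p + x ^ 2 = n

theorem rootWeight_lower {N n : ℕ} (hn : n ≤ N) (h9 : 9 ≤ n) : √(n : ℝ) / 2 ≤ rootWeight N n := by
  obtain ⟨m, rfl⟩ : ∃ m, n = m + 1 := ⟨n - 1, by omega⟩
  have e : ∑ i ∈ Ioc 0 m, WaringAsymptotic.weight (1 / 2) i ≤ rootWeight N (m + 1) := by
    rw [rootWeight, ← sum_image (f := fun z : ℕ × ℕ => WaringAsymptotic.weight (1 / 2) z.2)
      (g := fun i : ℕ => (m + 1 - i, i)) fun x _ y _ e => (Prod.mk.inj e).2]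
    refine sum_le_sum_of_subset_of_nonneg (fun z hz => ?_) fun z _ _ =>
      WaringAsymptotic.weight_nonneg (by norm_num) _
    obtain ⟨i, hi, rfl⟩ := mem_image.1 hz
    simp only [mem_filter, mem_product, mem_Ioc] at hi ⊢
    omega
  refine le_trans ?_ e
  refine le_trans ?_ (WaringAsymptotic.abs_sum_weight_sub_le (by norm_num) (by norm_num) m).1
  rw [← Real.sqrt_eq_rpow]
  obtain ⟨t, ht⟩ : ∃ t, t = √((m + 1 : ℕ) : ℝ) := ⟨_, rfl⟩
  rw [← ht]
  have ht2 : t * t = (m : ℝ) + 1 := by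
    rw [ht, Real.mul_self_sqrt (Nat.cast_nonneg _)]
    push_cast
    rfl
  have h8 : (8 : ℝ) ≤ m := by exact_mod_cast (show 8 ≤ m by omega)
  have ht3 : 3 ≤ t := by
    rw [ht]
    refine Real.le_sqrt_of_sq_le ?_
    push_cast
    linarith
  have h : t / 2 + 1 ≤ √(m : ℝ) := by
    refine Real.le_sqrt_of_sq_le ?_
    nlinarith
  linarith

/-- **The prime powers are negligible on average.** -/
theorem sum_squareReps_powerPart_le {N : ℕ} (hN : 1 ≤ N) :
    ∑ n ∈ Ioc 0 N, squareReps powerPart N n ≤ 2 * ((N : ℝ) * Real.log N) := by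
  refine (sum_fiberwise_le_sum_of_sum_fiber_nonneg fun y _ => sum_nonneg fun z _ =>
    powerPart_nonneg z.1).trans ?_
  rw [squareVars, sum_product]
  simp only [sum_const, Nat.card_Ioc, Nat.sub_zero, nsmul_eq_mul, ← mul_sum]
  have hs : (Nat.sqrt N : ℝ) ≤ √(N : ℝ) :=
    Real.le_sqrt_of_sq_le (by exact_mod_cast Nat.sqrt_le' N)
  refine (mul_le_mul hs ?_ (sum_nonneg fun x _ => powerPart_nonneg x) (Real.sqrt_nonneg _)).trans
    (le_of_eq ?_) (b := √(N : ℝ) * (2 * √(N : ℝ) * Real.log N))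
  · rw [show Ioc 0 N = Icc 1 N by ext; simp; omega]
    exact sum_powerPart_le hN
  · rw [← mul_assoc, mul_left_comm _ 2, Real.mul_self_sqrt (Nat.cast_nonneg N)]
    ring

theorem squareReps_eq_powerPart {N n : ℕ} (h : ¬IsPrimePlusSquare n) :
    squareReps Λ N n = squareReps powerPart N n := by
  refine sum_congr rfl fun z hz => ?_
  rw [powerPart, if_neg]
  intro hp
  simp only [squareVars, mem_filter, mem_product, mem_Ioc] at hz
  exact h ⟨z.1, z.2, hp, hz.1.2.1, hz.2⟩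

open Classical in
/-- **The theorem of Davenport and Heilbronn: almost all numbers are a prime plus a square.** -/
theorem eventually_exceptions_le {ε : ℝ} (hε : 0 < ε) : ∀ᶠ N : ℕ in atTop,
    (((Ioc 0 N).filter fun n => ¬IsPrimePlusSquare n).card : ℝ) ≤ ε * N := by
  obtain ⟨C₁, hC₁, hrest⟩ := exists_pair_rest
  obtain ⟨c, hc, hlow⟩ := exists_smoothPair_ge
  obtain ⟨N₀, C₂, hC₂, hdev⟩ := exists_deviation_le
  obtain ⟨K₀, hK₀, hpow⟩ := exists_log_pow_le 19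
  obtain ⟨K₁, hK₁, hpow₁⟩ := exists_log_pow_le 2
  obtain ⟨w, hw3, hw⟩ : ∃ w : ℕ, 3 ≤ w ∧
      4 * C₁ / c ^ 2 * (Real.log w ^ (8 : ℝ) * (w : ℝ) ^ (-(1 / 8) : ℝ)) ≤ ε / 8 := by
    have h := ((isLittleO_log_rpow_rpow_atTop (8 : ℝ)
      (show (0 : ℝ) < 1 / 8 by norm_num)).comp_tendsto tendsto_natCast_atTop_atTop).bound
        (show 0 < ε / 8 / (4 * C₁ / c ^ 2) by positivity)
    obtain ⟨T, hT⟩ := eventually_atTop.1 h
    refine ⟨max 3 T, le_max_left _ _, ?_⟩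
    obtain ⟨w, hw⟩ : ∃ w, w = max 3 T := ⟨_, rfl⟩
    rw [← hw]
    have hw0 : (0 : ℝ) < w := Nat.cast_pos.2 (by omega)
    have h' := hT w (hw ▸ le_max_right _ _)
    simp only [Function.comp_apply, Real.norm_eq_abs] at h'
    rw [abs_of_nonneg (Real.rpow_nonneg (Real.log_natCast_nonneg w) _),
      abs_of_nonneg (Real.rpow_nonneg hw0.le _), div_mul_eq_mul_div, le_div_iff₀ (by positivity)] at h'
    rw [Real.rpow_neg hw0.le, ← mul_assoc, ← div_eq_mul_inv, div_le_iff₀ (by positivity)]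
    linarith
  obtain ⟨cw, hcw⟩ : ∃ cw : ℝ, cw = c / Real.log w ^ (4 : ℝ) := ⟨_, rfl⟩
  have hlw : 0 < Real.log w := Real.log_pos (by exact_mod_cast (show 1 < w by omega))
  have hcw0 : 0 < cw := by rw [hcw]; positivity
  obtain ⟨X, hX⟩ : ∃ X : ℝ, X = √(ε / 2) * cw / 8 := ⟨_, rfl⟩
  have hX0 : 0 < X := by rw [hX]; positivity
  obtain ⟨b, hb⟩ : ∃ b : ℝ, b = 4 * K₀ / cw ^ 2 + 2 * K₁ / X + C₂ / X ^ 2 := ⟨_, rfl⟩
  refine eventually_atTop.2 ⟨max (max N₀ ⌈Real.exp (max (max (FourCubes.smoothModulus w : ℝ)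
    (4 * b / ε)) 1)⌉₊) (max 1 ⌈18 / ε⌉₊), fun N hN => ?_⟩
  simp only [max_le_iff] at hN
  have hN1 : (1 : ℝ) ≤ N := by exact_mod_cast hN.2.1
  have hN0 : (0 : ℝ) < N := by linarith
  obtain ⟨hl1, hd⟩ := hdev N hN.1.1
  obtain ⟨l, hl⟩ : ∃ l, l = Real.log N := ⟨_, rfl⟩
  rw [← hl] at hl1 hd
  have hl0 : 0 < l := by linarith
  have hlge : max (max (FourCubes.smoothModulus w : ℝ) (4 * b / ε)) 1 ≤ l := by
    rw [hl, Real.le_log_iff_exp_le hN0]
    exact (Nat.le_ceil _).trans (Nat.cast_le.2 hN.1.2)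
  simp only [max_le_iff] at hlge
  obtain ⟨Q, hQ⟩ : ∃ Q, Q = ⌊l ^ 3⌋₊ := ⟨_, rfl⟩
  rw [← hQ] at hd
  have hWQ : FourCubes.smoothModulus w ≤ Q :=
    hQ ▸ Nat.le_floor (hlge.1.1.trans (le_self_pow₀ hl1 (by omega)))
  have hsN : √(N : ℝ) ≤ N := by
    rw [Real.sqrt_le_left hN0.le]
    nlinarith
  have hQ6 : (Q : ℝ) ^ 6 ≤ K₀ * (N / l) := by
    rw [mul_div_assoc', le_div_iff₀ hl0]
    calc (Q : ℝ) ^ 6 * l ≤ (l ^ 3) ^ 6 * l := by
          gcongr
          exact hQ ▸ Nat.floor_le (by positivity)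
      _ = l ^ 19 := by ring
      _ ≤ K₀ * √(N : ℝ) := hl ▸ hpow N hN1
      _ ≤ K₀ * N := mul_le_mul_of_nonneg_left hsN hK₀.le
  obtain ⟨G, hG⟩ : ∃ G : ℕ → ℝ, G = fun n =>
      ‖∑ q ∈ Icc 1 Q, pairTerm n q - (smoothPair n w : ℂ)‖ := ⟨_, rfl⟩
  obtain ⟨D, hD⟩ : ∃ D : ℕ → ℝ, D = fun n => squareReps powerPart N n := ⟨_, rfl⟩
  obtain ⟨E, hE⟩ : ∃ E : ℕ → ℝ, E = fun n =>
      ‖(squareReps Λ N n : ℂ) - (rootWeight N n : ℂ) * ∑ q ∈ Icc 1 Q, pairTerm n q‖ := ⟨_, rfl⟩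
  have hD0 : ∀ n, 0 ≤ D n := fun n => hD ▸ sum_nonneg fun z _ => powerPart_nonneg z.1
  obtain ⟨Y, hY⟩ : ∃ Y : ℝ, Y = X * √(N : ℝ) := ⟨_, rfl⟩
  have hY0 : 0 < Y := by rw [hY]; positivity
  have hsub : (Ioc 0 N).filter (fun n => ¬IsPrimePlusSquare n) ⊆
      Ioc 0 ⌊ε / 2 * N⌋₊ ∪ ((Ioc 0 N).filter (fun n => cw / 2 ≤ G n) ∪
        ((Ioc 0 N).filter (fun n => Y ≤ D n) ∪ (Ioc 0 N).filter (fun n => Y ≤ E n))) := by
    intro n hn
    simp only [mem_filter, mem_Ioc] at hn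
    simp only [mem_union, mem_filter, mem_Ioc]
    by_cases hsmall : n ≤ ⌊ε / 2 * N⌋₊
    · exact Or.inl ⟨hn.1.1, hsmall⟩
    by_cases hA : cw / 2 ≤ G n
    · exact Or.inr (Or.inl ⟨hn.1, hA⟩)
    by_cases hB : Y ≤ D n
    · exact Or.inr (Or.inr (Or.inl ⟨hn.1, hB⟩))
    refine Or.inr (Or.inr (Or.inr ⟨hn.1, ?_⟩))
    have hbig : ε / 2 * N < n := (Nat.floor_lt (by positivity)).1 (not_le.1 hsmall)
    have h9 : 9 ≤ n := by
      have h1 : 18 / ε ≤ N := (Nat.le_ceil _).trans (Nat.cast_le.2 hN.2.2)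
      rw [div_le_iff₀ hε] at h1
      have h2 : (9 : ℝ) < n := by linarith
      exact_mod_cast h2.le
    have hJ : √(ε / 2) * √(N : ℝ) / 2 ≤ rootWeight N n := by
      refine le_trans ?_ (rootWeight_lower hn.1.2 h9)
      rw [← Real.sqrt_mul (by positivity)]
      exact div_le_div_of_nonneg_right (Real.sqrt_le_sqrt hbig.le) (by norm_num)
    obtain ⟨Z, hZ⟩ : ∃ Z, Z = ∑ q ∈ Icc 1 Q, pairTerm n q := ⟨_, rfl⟩
    have hZn : cw / 2 ≤ ‖Z‖ := by
      have h1 : cw ≤ ‖(smoothPair n w : ℂ)‖ := by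
        rw [Complex.norm_real, Real.norm_eq_abs]
        exact (hcw ▸ hlow w hw3 n).trans (le_abs_self _)
      have h2 := norm_le_norm_add_norm_sub Z (smoothPair n w : ℂ)
      simp only [hG] at hA
      rw [← hZ] at hA
      linarith
    rw [hE]
    simp only
    rw [← hZ, norm_sub_rev]
    refine le_trans ?_ (norm_sub_norm_le _ _)
    have hR : ‖(squareReps Λ N n : ℂ)‖ ≤ Y := by
      rw [Complex.norm_real, Real.norm_eq_abs, squareReps_eq_powerPart hn.2]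
      simp only [hD] at hB hD0
      rw [abs_of_nonneg (hD0 n)]
      exact (not_le.1 hB).le
    have hM : 2 * Y ≤ ‖(rootWeight N n : ℂ) * Z‖ := by
      rw [norm_mul, Complex.norm_real, Real.norm_eq_abs,
        abs_of_nonneg (le_trans (by positivity) hJ)]
      refine le_trans (le_of_eq ?_) (mul_le_mul hJ hZn (by positivity) (le_trans (by positivity) hJ))
      rw [hY, hX]
      ring
    linarith
  refine (Nat.cast_le.2 ((card_le_card hsub).trans ((card_union_le _ _).trans (add_le_add le_rfl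
    ((card_union_le _ _).trans (add_le_add le_rfl (card_union_le _ _))))))).trans ?_
  push_cast
  have hcount : ∀ (F : ℕ → ℝ) (x : ℝ), 0 < x → (∀ n, 0 ≤ F n) →
      (((Ioc 0 N).filter fun n => x ≤ F n).card : ℝ) ≤ (∑ n ∈ Ioc 0 N, F n) / x := by
    intro F x hx hF
    rw [le_div_iff₀ hx]
    refine le_trans ?_ ((card_nsmul_le_sum _ _ x fun n hn => (mem_filter.1 hn).2).trans
      (sum_le_sum_of_subset_of_nonneg (filter_subset _ _) fun n _ _ => hF n))
    rw [nsmul_eq_mul]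
  have hsq : ∀ (F : ℕ → ℝ) (x : ℝ), 0 < x →
      (((Ioc 0 N).filter fun n => x ≤ F n).card : ℝ) ≤ (∑ n ∈ Ioc 0 N, F n ^ 2) / x ^ 2 :=
    fun F x hx => le_trans (Nat.cast_le.2 (card_le_card fun n hn => by
      rw [mem_filter] at hn ⊢
      exact ⟨hn.1, pow_le_pow_left₀ hx.le hn.2 2⟩))
      (hcount (fun n => F n ^ 2) _ (by positivity) fun n => sq_nonneg _)
  have hA : (((Ioc 0 N).filter fun n => cw / 2 ≤ G n).card : ℝ) ≤
      ε / 8 * N + 4 * K₀ / cw ^ 2 * (N / l) := by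
    refine (hsq G (cw / 2) (by positivity)).trans ?_
    rw [div_le_iff₀ (by positivity), hG]
    refine (hrest w Q N (by omega) hWQ).trans ((add_le_add le_rfl hQ6).trans ?_)
    have h2 : C₁ * ((N : ℝ) * (w : ℝ) ^ (-(1 / 8) : ℝ)) ≤ ε / 8 * N * (cw / 2) ^ 2 := by
      have h3 := mul_le_mul_of_nonneg_right hw (mul_nonneg hN0.le (sq_nonneg (cw / 2)))
      have e : Real.log w ^ (8 : ℝ) = (Real.log w ^ (4 : ℝ)) ^ 2 := by
        rw [← Real.rpow_natCast (Real.log w ^ _) 2, ← Real.rpow_mul hlw.le]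
        norm_num
      rw [e, hcw] at h3
      rw [hcw]
      refine le_trans (le_of_eq ?_) (h3.trans (le_of_eq (by ring)))
      have : Real.log w ^ (4 : ℝ) ≠ 0 := (Real.rpow_pos_of_pos hlw _).ne'
      field_simp
      ring
    have h4 : K₀ * ((N : ℝ) / l) = 4 * K₀ / cw ^ 2 * (N / l) * (cw / 2) ^ 2 := by
      field_simp
      ring
    linarith
  have hB : (((Ioc 0 N).filter fun n => Y ≤ D n).card : ℝ) ≤ 2 * K₁ / X * (N / l) := by
    refine (hcount D Y hY0 hD0).trans ?_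
    rw [div_le_iff₀ hY0]
    refine le_trans (le_of_eq (sum_congr rfl fun n _ => congrFun hD n))
      ((sum_squareReps_powerPart_le hN.2.1).trans ?_)
    rw [← hl]
    have h1 : l * l ≤ K₁ * √(N : ℝ) := by
      rw [← sq]
      exact hl ▸ hpow₁ N hN1
    rw [hY, show 2 * K₁ / X * (N / l) * (X * √(N : ℝ)) = 2 * (N * (K₁ * √(N : ℝ))) / l by
      field_simp, le_div_iff₀ hl0]
    linarith [mul_le_mul_of_nonneg_left h1 hN0.le]
  have hC : (((Ioc 0 N).filter fun n => Y ≤ E n).card : ℝ) ≤ C₂ / X ^ 2 * (N / l) := by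
    refine (hsq E Y hY0).trans ?_
    rw [div_le_iff₀ (by positivity), hE]
    refine hd.trans (le_of_eq ?_)
    rw [hY, mul_pow, Real.sq_sqrt hN0.le]
    field_simp
  have h0 : ((Ioc 0 ⌊ε / 2 * N⌋₊).card : ℝ) ≤ ε / 2 * N := by
    rw [Nat.card_Ioc, Nat.sub_zero]
    exact Nat.floor_le (by positivity)
  have hbl : b * (N / l) ≤ ε / 4 * N := by
    have h1 := hlge.1.2
    rw [div_le_iff₀ hε] at h1
    rw [mul_div_assoc', div_le_iff₀ hl0]
    nlinarith
  rw [hb] at hbl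
  nlinarith

theorem not_isPrimePlusSquare_sq {m : ℕ} (hm : ¬(2 * m - 1).Prime) : ¬IsPrimePlusSquare (m ^ 2) := by
  rintro ⟨p, x, hp, hx, e⟩
  have hxm : x < m := by
    by_contra h
    have := Nat.pow_le_pow_left (not_lt.1 h) 2
    have := hp.pos
    omega
  have h1 : p = (m + x) * (m - x) := by
    rw [← Nat.sq_sub_sq]
    omega
  have h2 := Nat.prime_mul_iff.1 (h1 ▸ hp)
  rcases h2 with ⟨-, h⟩ | ⟨-, h⟩
  · refine hm ?_
    have : p = 2 * m - 1 := by rw [h1, h]; omega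
    exact this ▸ hp
  · omega

/-- **There are infinitely many exceptions.** -/
theorem infinite_exceptions : {n : ℕ | ¬IsPrimePlusSquare n}.Infinite := by
  refine Set.infinite_of_injective_forall_mem (f := fun j : ℕ => (3 * j + 5) ^ 2)
    (fun i j e => by simpa using Nat.pow_left_injective two_ne_zero e) fun j => ?_
  refine not_isPrimePlusSquare_sq fun h => ?_
  have := (Nat.prime_dvd_prime_iff_eq Nat.prime_three h).1 ⟨2 * j + 3, by omega⟩
  omega

end FA.PrimePlusSquare
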