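import Fermat.Agent.HuaThreeSquares.Singular
import Fermat.Agent.WaringAsymptotic.Positivity

/-!
# The singular series of a prime and a square

Its term at `q` is `μ q / φ q` times the term of one square. Over the divisors of `W` it sums to
`∏ (1 - (n/p) / (p - 1))`, at least a power of `1 / log w`; the rest of a partial sum is small in
mean square.
-/

set_option autoImplicit false

noncomputable section

namespace FA.PrimePlusSquare

open Finset FA.ThreePrimes

/-- The coefficient of a centre. -/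
def pairCoeff (z : Σ _ : ℕ, ℕ) : ℂ :=
  ((moebiusR z.1 / z.1.totient : ℝ) : ℂ) * WaringAsymptotic.densityFactor 2 z.1 z.2

/-- The singular series term. -/
def pairTerm (n q : ℕ) : ℂ :=
  ((moebiusR q / q.totient : ℝ) : ℂ) * WaringAsymptotic.singularTerm 2 1 n q

theorem norm_moebius_ratio_le (q : ℕ) : ‖((moebiusR q / q.totient : ℝ) : ℂ)‖ ≤ 1 := by
  rw [Complex.norm_real, Real.norm_eq_abs, abs_div, Nat.abs_cast]
  rcases Nat.eq_zero_or_pos q with rfl | hq
  · simp
  exact div_le_one_of_le₀ ((abs_moebiusR_le q).trans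
    (by exact_mod_cast Nat.totient_pos.2 hq)) (Nat.cast_nonneg _)

theorem norm_pairCoeff_le_one (z : Σ _ : ℕ, ℕ) : ‖pairCoeff z‖ ≤ 1 := by
  rw [pairCoeff, norm_mul]
  exact mul_le_one₀ (norm_moebius_ratio_le _) (norm_nonneg _)
    (WaringAsymptotic.norm_densityFactor_le_one _ _ _)

theorem pairTerm_eq_arcs (n : ℕ) (A : Finset ℕ) :
    ∑ q ∈ A, pairTerm n q =
      ∑ z ∈ A.sigma unitResidues, pairCoeff z * eAdd (-((n : ℝ) * centre z)) := by
  rw [sum_sigma]
  refine sum_congr rfl fun q _ => ?_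
  rw [pairTerm, WaringAsymptotic.singularTerm, mul_sum]
  refine sum_congr rfl fun r _ => ?_
  simp only [pairCoeff, centre, pow_one, mul_div_assoc, mul_assoc]

theorem pairTerm_one (n : ℕ) : pairTerm n 1 = 1 := by
  simp [pairTerm, WaringAsymptotic.singularTerm_one, moebiusR_isMultiplicative.1]

theorem pairTerm_mul (n : ℕ) {a b : ℕ} (h : a.Coprime b) :
    pairTerm n (a * b) = pairTerm n a * pairTerm n b := by
  rw [pairTerm, pairTerm, pairTerm, moebiusR_isMultiplicative.2 h, Nat.totient_mul h,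
    WaringAsymptotic.singularTerm_mul (by norm_num) h]
  push_cast
  rw [mul_div_mul_comm]
  ring

theorem moebiusR_primePow {p l : ℕ} (hp : p.Prime) (hl : l ≠ 0) :
    moebiusR (p ^ l) = if l = 1 then -1 else 0 := by
  rw [moebiusR, ArithmeticFunction.intCoe_apply, ArithmeticFunction.moebius_apply_prime_pow hp hl]
  split_ifs <;> simp

theorem pairTerm_primePow_eq_zero (n : ℕ) {p l : ℕ} (hp : p.Prime) (hl : 2 ≤ l) :
    pairTerm n (p ^ l) = 0 := by
  rw [pairTerm, moebiusR_primePow hp (by omega), if_neg (by omega)]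
  simp

/-! ### The local densities -/

/-- `1 - (n/p) / (p - 1)`. -/
def localPair (n p : ℕ) : ℝ :=
  1 - ((WaringAsymptotic.congrCount 2 1 n p : ℝ) - 1) / (p.totient : ℝ)

theorem one_add_pairTerm_prime (n : ℕ) {p : ℕ} (hp : p.Prime) :
    1 + pairTerm n p = (localPair n p : ℂ) := by
  have h := WaringAsymptotic.residueSum_primePow (k := 2) (s := 1) (N := n) hp 1
  rw [WaringAsymptotic.residueSum_eq (pow_pos hp.pos 1), sum_range_succ, sum_range_one, pow_zero,
    WaringAsymptotic.singularTerm_one] at h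
  simp only [pow_one] at h
  rw [mul_div_cancel_left₀ _ (Nat.cast_ne_zero.2 hp.ne_zero)] at h
  rw [pairTerm, localPair, eq_sub_of_add_eq' h.symm,
    show moebiusR p = -1 by simpa using moebiusR_primePow hp one_ne_zero]
  push_cast
  ring

theorem card_sqrts_zmod_two :
    ∀ b : ZMod 2, (univ.filter fun x : ZMod 2 => x ^ 2 = b).card ≤ 1 := by
  decide

theorem congrCount_square_le {p : ℕ} (hp : p.Prime) (n : ℕ) :
    WaringAsymptotic.congrCount 2 1 n p ≤ if p = 2 then 1 else 2 := by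
  have : Fact p.Prime := ⟨hp⟩
  refine le_trans (card_le_card_of_injOn (t := univ.filter fun x : ZMod p => x ^ 2 = (n : ZMod p))
    (fun z => (z 0 : ZMod p)) (fun z hz => ?_) fun z hz y hy e => ?_) ?_
  · simp only [mem_coe, mem_filter, Fintype.mem_piFinset, mem_range] at hz
    simp only [mem_coe, mem_filter, mem_univ, true_and]
    have h := (ZMod.intCast_zmod_eq_zero_iff_dvd _ _).2 hz.2
    simp only [Fin.sum_univ_one, Int.cast_sub, Int.cast_natCast, Nat.cast_pow, Int.cast_pow,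
      sub_eq_zero] at h
    exact h
  · simp only [mem_coe, mem_filter, Fintype.mem_piFinset, mem_range] at hz hy
    funext i
    rw [Subsingleton.elim i 0]
    have h := congrArg ZMod.val e
    simp only [ZMod.val_natCast_of_lt (hz.1 0), ZMod.val_natCast_of_lt (hy.1 0)] at h
    exact h
  · split_ifs with h2
    · subst h2
      exact card_sqrts_zmod_two _
    · exact WaringAsymptotic.card_pow_eq_le two_pos _

theorem localPair_ge {p : ℕ} (hp : p.Prime) (n : ℕ) :
    1 / 2 ≤ localPair n p ∧ 1 - 2 / (p : ℝ) ≤ localPair n p := by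
  have hν := congrCount_square_le hp n
  have hp2 : (2 : ℝ) ≤ p := by exact_mod_cast hp.two_le
  rw [localPair, Nat.totient_prime hp, Nat.cast_sub hp.one_le, Nat.cast_one]
  split_ifs at hν with h2
  · have h1 : (WaringAsymptotic.congrCount 2 1 n p : ℝ) ≤ 1 := by exact_mod_cast hν
    have h3 : ((WaringAsymptotic.congrCount 2 1 n p : ℝ) - 1) / ((p : ℝ) - 1) ≤ 0 :=
      div_nonpos_of_nonpos_of_nonneg (by linarith) (by linarith)
    have : 0 ≤ 2 / (p : ℝ) := by positivity
    constructor <;> linarith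
  · have h1 : (WaringAsymptotic.congrCount 2 1 n p : ℝ) ≤ 2 := by exact_mod_cast hν
    have hp3 : (3 : ℝ) ≤ p := by
      have := hp.two_le
      exact_mod_cast (show 3 ≤ p by omega)
    have h3 : ((WaringAsymptotic.congrCount 2 1 n p : ℝ) - 1) / ((p : ℝ) - 1) ≤ 1 / ((p : ℝ) - 1) :=
      div_le_div_of_nonneg_right (by linarith) (by linarith)
    have h4 : 1 / ((p : ℝ) - 1) ≤ 1 / 2 := one_div_le_one_div_of_le two_pos (by linarith)
    have h5 : 1 / ((p : ℝ) - 1) ≤ 2 / p := by
      rw [div_le_div_iff₀ (by linarith) (by linarith)]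
      linarith
    constructor <;> linarith

/-- The singular series over the divisors of `W`. -/
def smoothPair (n w : ℕ) : ℝ := ∏ p ∈ ErdosKac.primesUpTo w, localPair n p

theorem sum_divisors_smoothPair (n : ℕ) {w : ℕ} (hw : 1 ≤ w) :
    ∑ q ∈ (FourCubes.smoothModulus w).divisors, pairTerm n q = (smoothPair n w : ℂ) := by
  classical
  obtain ⟨f, hf⟩ : ∃ f : ArithmeticFunction ℂ, f = ⟨pairTerm n, by
      simp [pairTerm, WaringAsymptotic.singularTerm, unitResidues]⟩ := ⟨_, rfl⟩
  have hfa : ∀ q, f q = pairTerm n q := fun q => by rw [hf]; rfl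
  have hmul : ArithmeticFunction.IsMultiplicative f :=
    ⟨by rw [hfa, pairTerm_one], fun {a b} h => by rw [hfa, hfa, hfa, pairTerm_mul n h]⟩
  obtain ⟨g, hg⟩ : ∃ g : ArithmeticFunction ℂ, g = f * ↑ArithmeticFunction.zeta := ⟨_, rfl⟩
  have hga : ∀ m, g m = ∑ q ∈ m.divisors, pairTerm n q := fun m => by
    rw [hg, ArithmeticFunction.coe_mul_zeta_apply]
    exact sum_congr rfl fun q _ => hfa q
  have hgm : ArithmeticFunction.IsMultiplicative g :=
    hg ▸ hmul.mul ArithmeticFunction.isMultiplicative_zeta.natCast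
  rw [← hga, FourCubes.smoothModulus, ArithmeticFunction.IsMultiplicative.map_prod _ hgm _
    fun p hp r hr hne => ((Nat.coprime_primes (ErdosKac.mem_primesUpTo.1 hp).1
      (ErdosKac.mem_primesUpTo.1 hr).1).2 hne).pow w w, smoothPair, Complex.ofReal_prod]
  refine prod_congr rfl fun p hp => ?_
  have hp' := (ErdosKac.mem_primesUpTo.1 hp).1
  rw [hga, Nat.sum_divisors_prime_pow hp', ← one_add_pairTerm_prime n hp',
    ← sum_subset (range_subset_range.2 (show 2 ≤ w + 1 by omega)) fun l _ hl =>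
      pairTerm_primePow_eq_zero n hp' (by rw [mem_range] at hl; omega)]
  simp [sum_range_succ, pairTerm_one]

/-- **The lower bound.** -/
theorem exists_smoothPair_ge : ∃ c : ℝ, 0 < c ∧ ∀ w : ℕ, 3 ≤ w → ∀ n : ℕ,
    c / Real.log w ^ (4 : ℝ) ≤ smoothPair n w := by
  obtain ⟨C, hC⟩ := ErdosKac.exists_abs_recipSum_sub_le
  obtain ⟨b, hb⟩ : ∃ b : ℕ, b = 4 := ⟨_, rfl⟩
  refine ⟨(1 / 2 : ℝ) ^ b * Real.exp (-(4 * C)), mul_pos (by positivity) (Real.exp_pos _),
    fun w hw n => ?_⟩
  have hlw : 0 < Real.log w := Real.log_pos (by exact_mod_cast (show 1 < w by omega))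
  rw [smoothPair, ← prod_filter_mul_prod_filter_not (ErdosKac.primesUpTo w) (fun p => p < b)]
  have hsmall : (1 / 2 : ℝ) ^ b ≤
      ∏ p ∈ (ErdosKac.primesUpTo w).filter (fun p => p < b), localPair n p := by
    have hcard : ((ErdosKac.primesUpTo w).filter fun p => p < b).card ≤ b :=
      (card_le_card (t := range b) fun p hp => mem_range.2 (mem_filter.1 hp).2).trans
        (card_range b).le
    refine (pow_le_pow_of_le_one (by norm_num) (by norm_num) hcard).trans ?_
    rw [← prod_const]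
    refine prod_le_prod (fun _ _ => by norm_num) fun p hp => ?_
    rw [mem_filter, ErdosKac.mem_primesUpTo] at hp
    exact (localPair_ge hp.1.1 n).1
  have hlarge : Real.exp (-(4 * C)) / Real.log w ^ (4 : ℝ) ≤
      ∏ p ∈ (ErdosKac.primesUpTo w).filter (fun p => ¬p < b), localPair n p := by
    have h1 : ∀ p ∈ (ErdosKac.primesUpTo w).filter (fun p => ¬p < b),
        Real.exp (-(4 * (p : ℝ)⁻¹)) ≤ localPair n p := by
      intro p hp
      rw [mem_filter, ErdosKac.mem_primesUpTo, not_lt, hb] at hp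
      refine le_trans ?_ (localPair_ge hp.1.1 n).2
      obtain ⟨x, hx⟩ : ∃ x : ℝ, x = 2 / (p : ℝ) := ⟨_, rfl⟩
      have hx0 : 0 ≤ x := by rw [hx]; positivity
      have hx2 : x ≤ 1 / 2 := by
        rw [hx, div_le_iff₀ (Nat.cast_pos.2 hp.1.1.pos)]
        have : (4 : ℝ) ≤ p := by exact_mod_cast hp.2
        linarith
      rw [show 4 * (p : ℝ)⁻¹ = 2 * x by rw [hx]; ring, ← hx, Real.exp_neg,
        inv_le_iff_one_le_mul₀' (Real.exp_pos _)]
      nlinarith [Real.add_one_le_exp (2 * x), mul_nonneg hx0 (show 0 ≤ 1 - 2 * x by linarith)]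
    refine le_trans ?_ (prod_le_prod (fun _ _ => (Real.exp_pos _).le) h1)
    rw [← Real.exp_sum, Real.rpow_def_of_pos hlw, div_eq_mul_inv, ← Real.exp_neg, ← Real.exp_add,
      sum_neg_distrib, ← mul_sum]
    refine Real.exp_le_exp.2 ?_
    have hsum : ∑ p ∈ (ErdosKac.primesUpTo w).filter (fun p => ¬p < b), (p : ℝ)⁻¹ ≤
        ErdosKac.recipSum w :=
      sum_le_sum_of_subset_of_nonneg (filter_subset _ _) fun p _ _ => by positivity
    linarith [(abs_le.1 (hC w (by omega))).2]
  rw [mul_div_assoc]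
  exact mul_le_mul hsmall hlarge (by positivity) ((by positivity : (0 : ℝ) ≤ _).trans hsmall)

/-! ### The rest of the partial sum -/

theorem inv_totient_le_rpow {q : ℕ} (hq : 0 < q) :
    1 / (q.totient : ℝ) ≤ 2 * (q : ℝ) ^ (-(3 / 4) : ℝ) := by
  refine le_of_pow_le_pow_left₀ two_ne_zero (by positivity) ?_
  rw [div_pow, one_pow, mul_pow, ← Real.rpow_natCast ((q : ℝ) ^ _) 2,
    ← Real.rpow_mul (Nat.cast_nonneg q)]
  refine (inv_totient_sq_le hq).trans (le_of_eq ?_)
  norm_num

/-- **The rest of the partial sum is small in mean square.** -/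
theorem exists_pair_rest : ∃ C : ℝ, 0 < C ∧ ∀ w R N : ℕ, 1 ≤ w → FourCubes.smoothModulus w ≤ R →
    ∑ n ∈ Ioc 0 N, ‖∑ q ∈ Icc 1 R, pairTerm n q - (smoothPair n w : ℂ)‖ ^ 2 ≤
      C * ((N : ℝ) * (w : ℝ) ^ (-(1 / 8) : ℝ)) + (R : ℝ) ^ 6 := by
  obtain ⟨C, hC, hdf⟩ := WaringAsymptotic.exists_completeSum_le (k := 2) le_rfl
  have hsum : Summable fun q : ℕ => (q : ℝ) ^ (-(9 / 8) : ℝ) :=
    Real.summable_nat_rpow.2 (by norm_num)
  refine ⟨2 * C ^ 2 * (∑' q : ℕ, (q : ℝ) ^ (-(9 / 8) : ℝ) + 1), mul_pos (by positivity)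
    (add_pos_of_nonneg_of_pos (tsum_nonneg fun q => by positivity) one_pos),
    fun w R N hw hWR => ?_⟩
  have hsub : (FourCubes.smoothModulus w).divisors ⊆ Icc 1 R := fun q hq => mem_Icc.2
    ⟨Nat.pos_of_mem_divisors hq, (Nat.divisor_le hq).trans hWR⟩
  obtain ⟨S, hS⟩ : ∃ S, S = Icc 1 R \ (FourCubes.smoothModulus w).divisors := ⟨_, rfl⟩
  have e : ∀ n, ∑ q ∈ Icc 1 R, pairTerm n q - (smoothPair n w : ℂ) =
      ∑ z ∈ S.sigma unitResidues, pairCoeff z * eAdd (-((n : ℝ) * centre z)) := fun n => by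
    rw [← sum_divisors_smoothPair n hw, ← sum_sdiff hsub, add_sub_cancel_right, hS,
      pairTerm_eq_arcs]
  simp only [e]
  refine (HuaThreeSquares.sum_norm_trig_sq_le (R := R) ?_ pairCoeff norm_pairCoeff_le_one 0 N).trans
    (add_le_add ?_ le_rfl)
  · intro z hz
    rw [mem_sigma, hS, mem_sdiff] at hz
    rw [arcCentres, mem_sigma]
    exact ⟨hz.1.1, hz.2⟩
  · rw [Nat.sub_zero, mul_left_comm]
    refine mul_le_mul_of_nonneg_left ?_ (Nat.cast_nonneg _)
    rw [sum_sigma]
    calc ∑ q ∈ S, ∑ r ∈ unitResidues q, ‖pairCoeff ⟨q, r⟩‖ ^ 2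
        ≤ ∑ q ∈ S, 2 * C ^ 2 * ((w : ℝ) ^ (-(1 / 8) : ℝ) * (q : ℝ) ^ (-(9 / 8) : ℝ)) := by
          refine sum_le_sum fun q hq => ?_
          rw [hS, mem_sdiff, mem_Icc] at hq
          have hwq : w < q := by
            by_contra h
            exact hq.2 (Nat.mem_divisors.2 ⟨FourCubes.dvd_smoothModulus hq.1.1 (not_lt.1 h),
              (FourCubes.smoothModulus_pos w).ne'⟩)
          have hq0 : (0 : ℝ) < q := Nat.cast_pos.2 hq.1.1
          have hφ : (0 : ℝ) < q.totient := Nat.cast_pos.2 (Nat.totient_pos.2 hq.1.1)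
          refine (sum_le_card_nsmul _ _ ((1 / (q.totient : ℝ)) ^ 2 *
            (C * (q : ℝ) ^ (-(1 / 4) : ℝ)) ^ 2) fun r hr => ?_).trans ?_
          · rw [pairCoeff, norm_mul, mul_pow]
            refine mul_le_mul (pow_le_pow_left₀ (norm_nonneg _) ?_ 2)
              (pow_le_pow_left₀ (norm_nonneg _) ?_ 2) (sq_nonneg _) (sq_nonneg _)
            · rw [Complex.norm_real, Real.norm_eq_abs, abs_div, Nat.abs_cast]
              exact div_le_div_of_nonneg_right (abs_moebiusR_le q) hφ.le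
            · have h := hdf q r hq.1.1 (FourCubes.unitResidues_cast_isUnit hr)
              rw [WaringAsymptotic.densityFactor, norm_div, Complex.norm_natCast,
                div_le_iff₀ hq0, mul_assoc, ← Real.rpow_add_one hq0.ne']
              norm_num at h ⊢
              exact h
          rw [nsmul_eq_mul, card_unitResidues,
            show (q.totient : ℝ) * ((1 / (q.totient : ℝ)) ^ 2 * (C * (q : ℝ) ^ (-(1 / 4) : ℝ)) ^ 2) =
              1 / (q.totient : ℝ) * (C ^ 2 * ((q : ℝ) ^ (-(1 / 4) : ℝ)) ^ 2) by field_simp]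
          refine (mul_le_mul_of_nonneg_right (inv_totient_le_rpow hq.1.1) (by positivity)).trans ?_
          rw [← Real.rpow_natCast ((q : ℝ) ^ (-(1 / 4) : ℝ)) 2, ← Real.rpow_mul hq0.le,
            show 2 * (q : ℝ) ^ (-(3 / 4) : ℝ) * (C ^ 2 * (q : ℝ) ^ (-(1 / 4) * ((2 : ℕ) : ℝ))) =
              2 * C ^ 2 * ((q : ℝ) ^ (-(3 / 4) : ℝ) * (q : ℝ) ^ (-(1 / 4) * ((2 : ℕ) : ℝ))) by ring,
            ← Real.rpow_add hq0,
            show -(3 / 4 : ℝ) + -(1 / 4) * ((2 : ℕ) : ℝ) = -(1 / 8) + -(9 / 8) by norm_num,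
            Real.rpow_add hq0]
          exact mul_le_mul_of_nonneg_left (mul_le_mul_of_nonneg_right
            (Real.rpow_le_rpow_of_nonpos (Nat.cast_pos.2 hw) (Nat.cast_le.2 hwq.le) (by norm_num))
            (by positivity)) (by positivity)
      _ ≤ _ := by
          rw [← mul_sum, ← mul_sum]
          refine (mul_le_mul_of_nonneg_left (mul_le_mul_of_nonneg_left
            (hsum.sum_le_tsum S fun q _ => by positivity) (by positivity)) (by positivity)).trans ?_
          have : 0 ≤ 2 * C ^ 2 * (w : ℝ) ^ (-(1 / 8) : ℝ) := by positivity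
          linarith

end FA.PrimePlusSquare
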